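import Fermat.Agent.S55.E1.SpecAlg3

/-!
# S55 / E1 : ALG10C (subtask 479) — functoriality of the transition maps

`alg10Comp : ALG10CompSpec` and `alg10CompE2 : ALG10CompE2Spec`:
`tr ∘ tr = tr` along `G'' → G' → G` on `P`, `R`, `𝔈²` and `Hⁿ`.
-/

set_option autoImplicit false

open CategoryTheory CategoryTheory.Limits

namespace Fermat.Agent.S55.E1.H793

open Fermat.Agent.S55.E1

section

variable {G G' G'' : Type} [Group G] [Group G'] [Group G''] (π : G' →* G) (π' : G'' →* G')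
variable {N : Rep.{0} ℤ G} {N' : Rep.{0} ℤ G'} {N'' : Rep.{0} ℤ G''}
variable (ν : N' ⟶ Rep.res π N) (ν' : N'' ⟶ Rep.res π' N') (ν'' : N'' ⟶ Rep.res (π.comp π') N)

/-- The inclusion `R → P` is injective on elements. -/
lemma stdι_hom_injective {H : Type} [Group H] (M : Rep.{0} ℤ H) :
    Function.Injective (stdι M).hom :=
  (Rep.mono_iff_injective (stdι M)).1 (stdι_mono M)

/-- `tr ∘ tr = tr` on `P`, as morphisms. -/
lemma trP_comp_eq (hν : ∀ n : N''.V, ν''.hom n = ν.hom (ν'.hom n)) :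
    trP (π.comp π') ν'' = trP π' ν' ≫ (Rep.resFunctor π').map (trP π ν) := by
  apply Rep.free_ext
  intro n
  have h1 := trP_stdE (π.comp π') ν'' n
  have h2 := trP_stdE π' ν' n
  have h3 := trP_stdE π ν (ν'.hom n)
  unfold stdE at h1 h2 h3
  rw [Rep.comp_apply]
  erw [h1, h2]
  rw [hν]
  exact h3.symm

/-- `tr ∘ tr = tr` on `P`, elementwise. -/
lemma trP_comp_apply (hν : ∀ n : N''.V, ν''.hom n = ν.hom (ν'.hom n)) (x : (stdP N'').V) :
    (trP (π.comp π') ν'').hom x = (trP π ν).hom ((trP π' ν').hom x) := by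
  have := congrArg (fun f => f.hom x) (trP_comp_eq π π' ν ν' ν'' hν)
  exact this

/-- `tr ∘ tr = tr` on `R`, elementwise. -/
lemma trR_comp_apply (hν : ∀ n : N''.V, ν''.hom n = ν.hom (ν'.hom n)) (r : (stdR N'').V) :
    (trR (π.comp π') ν'').hom r = (trR π ν).hom ((trR π' ν').hom r) := by
  apply stdι_hom_injective N
  rw [trR_stdι_apply, trR_stdι_apply, trR_stdι_apply]
  exact trP_comp_apply π π' ν ν' ν'' hν _

end

/-- **ALG10 (functoriality)** on `P` and `R`. -/
theorem alg10Comp : ALG10CompSpec := by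
  intro G G' G'' _ _ _ π π' N N' N'' ν ν' ν'' hν
  exact ⟨trP_comp_apply π π' ν ν' ν'' hν, trR_comp_apply π π' ν ν' ν'' hν⟩

section

variable {k G G' G'' : Type} [CommRing k] [Group G] [Group G'] [Group G'']
variable (π : G' →* G) (π' : G'' →* G')
variable {A X : Rep.{0} k G} {A' X' : Rep.{0} k G'} {A'' X'' : Rep.{0} k G''}

/-- Composition of the coefficient maps `φ ↦ ι ∘ φ ∘ a`. -/
lemma trIhom_comp_eq (a : A' ⟶ Rep.res π A) (a' : A'' ⟶ Rep.res π' A')
    (a'' : A'' ⟶ Rep.res (π.comp π') A)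
    (ι : Rep.res π X ⟶ X') (ι' : Rep.res π' X' ⟶ X'') (ι'' : Rep.res (π.comp π') X ⟶ X'')
    (ha : ∀ x : A''.V, a''.hom x = a.hom (a'.hom x))
    (hι : ∀ x : X.V, ι''.hom x = ι'.hom (ι.hom x)) :
    trIhom (π.comp π') a'' ι'' = (Rep.resFunctor π').map (trIhom π a ι) ≫ trIhom π' a' ι' := by
  apply Rep.hom_ext
  apply DFunLike.ext
  intro φ
  have key : ∀ x : A''.V,
      (show A''.V →ₗ[k] X''.V from (trIhom (π.comp π') a'' ι'').hom φ) x =
        (show A''.V →ₗ[k] X''.V from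
          ((Rep.resFunctor π').map (trIhom π a ι) ≫ trIhom π' a' ι').hom φ) x := by
    intro x
    change ι''.hom ((show A.V →ₗ[k] X.V from φ) (a''.hom x)) =
      ι'.hom (ι.hom ((show A.V →ₗ[k] X.V from φ) (a.hom (a'.hom x))))
    rw [ha, hι]
  exact LinearMap.ext key

/-- Composition of the coefficient maps, degenerate case. -/
lemma iota_comp_eq (ι : Rep.res π X ⟶ X') (ι' : Rep.res π' X' ⟶ X'')
    (ι'' : Rep.res (π.comp π') X ⟶ X'') (hι : ∀ x : X.V, ι''.hom x = ι'.hom (ι.hom x)) :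
    ι'' = (Rep.resFunctor π').map ι ≫ ι' := by
  apply Rep.hom_ext
  apply DFunLike.ext
  intro x
  exact hι x

end

/-- **ALG10 (functoriality on `𝔈²` and `Hⁿ`).** -/
theorem alg10CompE2 : ALG10CompE2Spec := by
  intro G G' G'' _ _ _ π π' N N' N'' ν ν' ν'' X X' X'' ι ι' ι'' hν hι
  refine ⟨?_, ?_⟩
  · intro y
    have h1 : trIhom (π.comp π') (trR (π.comp π') ν'') ι'' =
        (Rep.resFunctor π').map (trIhom π (trR π ν) ι) ≫ trIhom π' (trR π' ν') ι' :=
      trIhom_comp_eq π π' (trR π ν) (trR π' ν') (trR (π.comp π') ν'') ι ι' ι''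
        (trR_comp_apply π π' ν ν' ν'' hν) hι
    have h2 := groupCohomology.map_comp π π' (trIhom π (trR π ν) ι) (trIhom π' (trR π' ν') ι') 1
    unfold trE2
    rw [h1, h2]
    rfl
  · intro n z
    have h1 := iota_comp_eq π π' ι ι' ι'' hι
    have h2 := groupCohomology.map_comp π π' ι ι' n
    unfold infCoeff
    rw [h1, h2]
    rfl

end Fermat.Agent.S55.E1.H793
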